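import Mathlib.NumberTheory.LegendreSymbol.JacobiSymbol
import Mathlib.Tactic

/-!
# No rational points on the egg of the Bremner–Macleod curve

For odd `n` a point with `x < 0` gives `t² = A s² v² - d s⁴ - e v⁴` with `d e = 32 (n + 3)`. Modulo
`2 n + 5` this says that `-d` is a square, and reciprocity says that it is not.
-/

set_option autoImplicit false

open NumberTheorySymbols

namespace FA.BremnerMacleod

theorem zmod8_sq_odd {x : ℤ} (h : Odd x) : (x : ZMod 8) ^ 2 = 1 := by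
  obtain ⟨k, rfl⟩ := h
  push_cast
  exact (by decide : ∀ k : ZMod 8, (2 * k + 1) ^ 2 = 1) _

/-- For `n ≡ 3 (mod 4)` the descent has no solution with `d` even. -/
theorem two_not_dvd {k d f s v t : ℤ} (hd : Odd d) (hf : Odd f) (hv : Odd v ∨ Odd s)
    (h : t ^ 2 = (4 * (4 * k + 3) ^ 2 + 12 * (4 * k + 3) - 3) * s ^ 2 * v ^ 2 - 2 * d * s ^ 4
      - 32 * f * v ^ 4) : False := by
  set A : ℤ := 4 * (4 * k + 3) ^ 2 + 12 * (4 * k + 3) - 3 with hA
  have hA8 : (A : ZMod 8) = 5 := by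
    rw [hA]; push_cast
    exact (by decide : ∀ k : ZMod 8,
      4 * (4 * k + 3) ^ 2 + 12 * (4 * k + 3) - 3 = (5 : ZMod 8)) _
  obtain ⟨d', rfl⟩ := hd
  obtain ⟨f', rfl⟩ := hf
  rcases Int.even_or_odd v with hve | hvo
  · obtain ⟨w, rfl⟩ := hve
    have hs := zmod8_sq_odd (hv.resolve_left (by simp))
    have h' := congrArg (fun x : ℤ => (x : ZMod 8)) h
    push_cast at h'
    rw [show (s : ZMod 8) ^ 4 = ((s : ZMod 8) ^ 2) ^ 2 by ring, hs] at h'
    rw [show (32 : ZMod 8) = 0 by decide, zero_mul, zero_mul, sub_zero] at h'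
    exact (by decide : ∀ t a w d : ZMod 8,
      t ^ 2 ≠ a * 1 * (w + w) ^ 2 - 2 * (2 * d + 1) * 1 ^ 2) _ _ _ _ h'
  have hv2 := zmod8_sq_odd hvo
  rcases Int.even_or_odd s with hse | hso
  · obtain ⟨a, rfl⟩ := hse
    obtain ⟨b, rfl⟩ : (2 : ℤ) ∣ t := by
      refine Int.prime_two.dvd_of_dvd_pow (n := 2) ⟨2 * A * a ^ 2 * v ^ 2
        - 16 * (2 * d' + 1) * a ^ 4 - 16 * (2 * f' + 1) * v ^ 4, ?_⟩
      rw [h]; ring
    have h2 : b ^ 2 = A * a ^ 2 * v ^ 2 - 8 * (2 * d' + 1) * a ^ 4 - 8 * (2 * f' + 1) * v ^ 4 := by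
      exact mul_left_cancel₀ (by norm_num : (4 : ℤ) ≠ 0) (by linear_combination h)
    rcases Int.even_or_odd a with hae | hao
    · obtain ⟨c, rfl⟩ := hae
      obtain ⟨g, rfl⟩ : (2 : ℤ) ∣ b := by
        refine Int.prime_two.dvd_of_dvd_pow (n := 2) ⟨2 * A * c ^ 2 * v ^ 2
          - 64 * (2 * d' + 1) * c ^ 4 - 4 * (2 * f' + 1) * v ^ 4, ?_⟩
        rw [h2]; ring
      have h3 : g ^ 2 = A * c ^ 2 * v ^ 2 - 32 * (2 * d' + 1) * c ^ 4
          - 2 * (2 * f' + 1) * v ^ 4 := by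
        exact mul_left_cancel₀ (by norm_num : (4 : ℤ) ≠ 0) (by linear_combination h2)
      have h' := congrArg (fun x : ℤ => (x : ZMod 8)) h3
      push_cast at h'
      rw [show (v : ZMod 8) ^ 4 = ((v : ZMod 8) ^ 2) ^ 2 by ring, hv2, hA8] at h'
      exact (by decide : ∀ t c d f : ZMod 8,
        t ^ 2 ≠ 5 * c ^ 2 * 1 - 32 * d * c ^ 4 - 2 * (2 * f + 1) * 1 ^ 2) _ _ _ _ h'
    · have h' := congrArg (fun x : ℤ => (x : ZMod 8)) h2
      push_cast at h'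
      rw [show (v : ZMod 8) ^ 4 = ((v : ZMod 8) ^ 2) ^ 2 by ring, hv2, hA8,
        zmod8_sq_odd hao] at h'
      exact (by decide : ∀ t a d f : ZMod 8,
        t ^ 2 ≠ 5 * 1 * 1 - 8 * d * a ^ 4 - 8 * f * 1 ^ 2) _ _ _ _ h'
  · have h' := congrArg (fun x : ℤ => (x : ZMod 8)) h
    push_cast at h'
    rw [show (v : ZMod 8) ^ 4 = ((v : ZMod 8) ^ 2) ^ 2 by ring, hv2,
      show (s : ZMod 8) ^ 4 = ((s : ZMod 8) ^ 2) ^ 2 by ring, zmod8_sq_odd hso, hA8] at h'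
    exact (by decide : ∀ t d f : ZMod 8,
      t ^ 2 ≠ 5 * 1 * 1 - 2 * (2 * d + 1) * 1 ^ 2 - 32 * f * 1 ^ 2) _ _ _ h'

/-- A divisor `d` of `32 (n + 3)` has Jacobi symbol `1` modulo `2 n + 5`. -/
theorem jacobi_divisor {n d : ℕ} (hn : Odd n) (hdvd : d ∣ 32 * (n + 3))
    (htwo : n % 4 = 3 → ¬2 ∣ d) : J((d : ℤ) | 2 * n + 5) = 1 := by
  have hd0 : d ≠ 0 := by rintro rfl; simp at hdvd
  obtain ⟨i, d', hodd, rfl⟩ := Nat.exists_eq_two_pow_mul_odd hd0
  have hn2 := Nat.odd_iff.1 hn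
  rw [Nat.cast_mul, Nat.cast_pow, jacobiSym.mul_left, jacobiSym.pow_left, Nat.cast_ofNat]
  have h2 : J((2 : ℤ) | 2 * n + 5) ^ i = 1 := by
    rcases eq_or_ne i 0 with rfl | hi
    · rw [pow_zero]
    · have : n % 4 ≠ 3 := fun h => htwo h (dvd_mul_of_dvd_left (dvd_pow_self 2 hi) _)
      rw [jacobiSym.at_two (Nat.odd_iff.2 (by omega)), ZMod.χ₈_nat_mod_eight,
        show (2 * n + 5) % 8 = 7 by omega, show ZMod.χ₈ ((7 : ℕ) : ZMod 8) = 1 by decide, one_pow]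
  rw [h2, one_mul]
  have h3 : d' ∣ n + 3 :=
    (Nat.Coprime.pow_right 5 hodd.coprime_two_right).dvd_of_dvd_mul_left
      (show d' ∣ 2 ^ 5 * (n + 3) from (dvd_mul_left d' _).trans hdvd)
  have hmod : J(((2 * n + 5 : ℕ) : ℤ) | d') = J((-1 : ℤ) | d') := by
    refine jacobiSym.mod_left' (Int.modEq_iff_dvd.2 ?_)
    push_cast
    obtain ⟨k, hk⟩ := h3
    exact ⟨-2 * k, by have : ((n : ℤ) + 3) = d' * k := by exact_mod_cast hk
                      linear_combination -2 * this⟩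
  have hd2 := Nat.odd_iff.1 hodd
  rcases (show d' % 4 = 1 ∨ d' % 4 = 3 by omega) with h | h
  · rw [jacobiSym.quadratic_reciprocity_one_mod_four h (Nat.odd_iff.2 (by omega)), hmod,
      jacobiSym.at_neg_one hodd, ZMod.χ₄_nat_one_mod_four h]
  · rw [jacobiSym.quadratic_reciprocity_three_mod_four h (by omega), hmod,
      jacobiSym.at_neg_one hodd, ZMod.χ₄_nat_three_mod_four h, neg_neg]

/-- The descent equation has no solution. -/
theorem descent {n d : ℕ} {e s v t : ℤ} (hn : Odd n) (hd : Squarefree d)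
    (hde : (d : ℤ) * e = 32 * ((n : ℤ) + 3)) (hsv : IsCoprime s v)
    (h : t ^ 2 = (4 * (n : ℤ) ^ 2 + 12 * n - 3) * s ^ 2 * v ^ 2 - d * s ^ 4 - e * v ^ 4) :
    False := by
  have hn2 := Nat.odd_iff.1 hn
  have hdvd : d ∣ 32 * (n + 3) := by
    have : (d : ℤ) ∣ ((32 * (n + 3) : ℕ) : ℤ) := ⟨e, by push_cast; exact hde.symm⟩
    exact_mod_cast this
  have htwo : n % 4 = 3 → ¬2 ∣ d := by
    intro h4 h2
    obtain ⟨d', rfl⟩ := h2
    have hd' : Odd (d' : ℤ) := by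
      rw [Int.odd_coe_nat, ← Nat.not_even_iff_odd]
      rintro ⟨c, rfl⟩
      exact Nat.prime_two.not_isUnit (hd 2 ⟨c, by ring⟩)
    obtain ⟨k, hk⟩ : ∃ k : ℤ, (n : ℤ) = 4 * k + 3 := ⟨(n / 4 : ℕ), by omega⟩
    push_cast at hde h
    rw [hk] at hde h
    have h1 : (d' : ℤ) * e = 32 * (2 * k + 3) :=
      mul_left_cancel₀ (by norm_num : (2 : ℤ) ≠ 0) (by linear_combination hde)
    obtain ⟨f, rfl⟩ : (32 : ℤ) ∣ e := by
      refine IsCoprime.dvd_of_dvd_mul_left ?_ ⟨_, h1⟩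
      obtain ⟨j, hj⟩ := hd'
      rw [hj, show (32 : ℤ) = 2 ^ 5 by norm_num]
      exact IsCoprime.pow_left ⟨-j, 1, by ring⟩
    have hf : Odd f := by
      have h5 : (d' : ℤ) * f = 2 * k + 3 :=
        mul_left_cancel₀ (by norm_num : (32 : ℤ) ≠ 0) (by linear_combination h1)
      exact (Int.odd_mul.1 (show Odd ((d' : ℤ) * f) from h5 ▸ ⟨k + 1, by ring⟩)).2
    refine two_not_dvd (k := k) (s := s) (v := v) (t := t) hd' hf ?_ (h.trans (by ring))
    rcases Int.even_or_odd v with ⟨w, rfl⟩ | hv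
    · refine Or.inr (Int.not_even_iff_odd.1 fun ⟨r, hr⟩ => ?_)
      subst hr
      exact Int.prime_two.not_isUnit (hsv.isUnit_of_dvd' ⟨r, by ring⟩ ⟨w, by ring⟩)
    · exact Or.inl hv
  have hm1 : J((-(d : ℤ)) | 2 * n + 5) = -1 := by
    rw [jacobiSym.neg _ (Nat.odd_iff.2 (by omega)), jacobi_divisor hn hdvd htwo, mul_one,
      ZMod.χ₄_nat_three_mod_four (by omega)]
  have hm2 : J((-(d : ℤ)) | 2 * n + 5) = 1 := by
    refine List.prod_eq_one fun x hx => ?_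
    obtain ⟨p, hp, rfl⟩ := List.mem_pmap.1 hx
    have hp' := Nat.mem_primeFactorsList'.1 hp
    have : Fact p.Prime := ⟨hp'.1⟩
    have hm0 : ((2 * n + 5 : ℕ) : ZMod p) = 0 :=
      (ZMod.natCast_eq_zero_iff _ _).2 hp'.2.1
    push_cast at hm0
    have htwo0 : (2 : ZMod p) ≠ 0 := fun h2 => by
      have : (5 : ZMod p) = 0 := by linear_combination hm0 - (n : ZMod p) * h2
      exact one_ne_zero (show (1 : ZMod p) = 0 by linear_combination this - 2 * h2)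
    have hB : (d : ZMod p) * (e : ZMod p) = 16 := by
      have := congrArg (fun x : ℤ => (x : ZMod p)) hde
      push_cast at this
      linear_combination this + 16 * hm0
    have hd0 : (d : ZMod p) ≠ 0 := fun h0 => by
      rw [h0, zero_mul] at hB
      exact pow_ne_zero 4 htwo0 (by linear_combination -hB)
    have heq := congrArg (fun x : ℤ => (x : ZMod p)) h
    push_cast at heq
    have hkey : (d : ZMod p) * (t : ZMod p) ^ 2
        + ((d : ZMod p) * (s : ZMod p) ^ 2 + 4 * (v : ZMod p) ^ 2) ^ 2 = 0 := by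
      linear_combination (d : ZMod p) * heq - (v : ZMod p) ^ 4 * hB +
        (d : ZMod p) * (s : ZMod p) ^ 2 * (v : ZMod p) ^ 2 * (2 * (n : ZMod p) + 1) * hm0
    rw [legendreSym.eq_one_iff p (by simpa using hd0)]
    push_cast
    by_cases ht : (t : ZMod p) = 0
    · have hz : (d : ZMod p) * (s : ZMod p) ^ 2 + 4 * (v : ZMod p) ^ 2 = 0 :=
        pow_eq_zero_iff two_ne_zero |>.1 (by simpa [ht] using hkey)
      have hs : (s : ZMod p) ≠ 0 := fun h0 => by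
        have hv : (v : ZMod p) = 0 := by
          simpa [h0, show (4 : ZMod p) ≠ 0 by
            rw [show (4 : ZMod p) = 2 ^ 2 by norm_num]; exact pow_ne_zero _ htwo0] using hz
        obtain ⟨x, y, hxy⟩ := hsv
        have := congrArg (fun x : ℤ => (x : ZMod p)) hxy
        simp [h0, hv] at this
      refine ⟨2 * v / s, ?_⟩
      field_simp
      linear_combination -hz
    · refine ⟨((d : ZMod p) * (s : ZMod p) ^ 2 + 4 * (v : ZMod p) ^ 2) / t, ?_⟩
      field_simp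
      linear_combination -hkey
  rw [hm1] at hm2
  norm_num at hm2

/-- The curve has no rational point with `x < 0`. -/
theorem egg_empty {n : ℕ} (hn : Odd n) {x y : ℚ}
    (h : y ^ 2 = x ^ 3 + (4 * (n : ℚ) ^ 2 + 12 * n - 3) * x ^ 2 + 32 * ((n : ℚ) + 3) * x)
    (hx : x < 0) : False := by
  obtain ⟨u, hu⟩ : ∃ u : ℕ, x.num = -(u : ℤ) :=
    ⟨x.num.natAbs, by have := Rat.num_neg.2 hx; omega⟩
  have hu0 : u ≠ 0 := by have := Rat.num_neg.2 hx; omega
  have hcop : Nat.Coprime u x.den := by simpa [hu] using x.reduced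
  set M : ℤ := (4 * (n : ℤ) ^ 2 + 12 * n - 3) * x.den * u - (u : ℤ) ^ 2
    - 32 * ((n : ℤ) + 3) * (x.den : ℤ) ^ 2 with hM
  have hxe : x = -(u : ℚ) / x.den := by
    conv_lhs => rw [← Rat.num_div_den x, hu]
    push_cast; ring
  have hsq : IsSquare (((x.den : ℤ) * u * M : ℤ) : ℚ) := by
    refine ⟨y * (x.den : ℚ) ^ 2, ?_⟩
    have : (x.den : ℚ) ≠ 0 := by exact_mod_cast x.den_nz
    rw [hxe] at h
    field_simp at h
    push_cast [hM]
    linear_combination -(x.den : ℚ) * h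
  obtain ⟨r, hr⟩ : IsSquare ((x.den : ℤ) * u * M) := Rat.isSquare_intCast_iff.1 hsq
  -- the denominator is a square
  obtain ⟨v, hv⟩ : ∃ v : ℤ, (x.den : ℤ) = v ^ 2 := by
    have hc : IsCoprime (x.den : ℤ) ((u : ℤ) * M) := by
      have h1 : IsCoprime (x.den : ℤ) (u : ℤ) := hcop.symm.isCoprime
      refine h1.mul_right ?_
      rw [show M = -((u : ℤ) ^ 2) + (x.den : ℤ) * ((4 * (n : ℤ) ^ 2 + 12 * n - 3) * u
        - 32 * ((n : ℤ) + 3) * x.den) by rw [hM]; ring]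
      exact (h1.pow_right.neg_right).add_mul_left_right _
    obtain ⟨v, hv | hv⟩ := Int.sq_of_isCoprime hc (c := r) (by rw [← mul_assoc, hr, sq])
    · exact ⟨v, hv⟩
    · exact ⟨v, by have := x.den_pos; nlinarith [sq_nonneg v]⟩
  obtain ⟨d, s, hds, hd⟩ := Nat.sq_mul_squarefree u
  have hs0 : s ≠ 0 := by rintro rfl; simp [← hds] at hu0
  have hu' : (u : ℤ) = (d : ℤ) * (s : ℤ) ^ 2 := by rw [← hds]; push_cast; ring
  have hv0 : v ≠ 0 := by rintro rfl; simp at hv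
  have hd0 : (d : ℤ) ≠ 0 := by exact_mod_cast hd.ne_zero
  -- `d M` is a square
  obtain ⟨w, hw⟩ : ∃ w : ℤ, (d : ℤ) * M = w ^ 2 := by
    obtain ⟨w, hw⟩ : v * s ∣ r := by
      rw [← Int.pow_dvd_pow_iff (two_ne_zero)]
      refine ⟨(d : ℤ) * M, ?_⟩
      rw [sq r, ← hr, hv, hu']; ring
    refine ⟨w, mul_left_cancel₀ (pow_ne_zero 2 (mul_ne_zero hv0 (by exact_mod_cast hs0) :
      v * (s : ℤ) ≠ 0)) ?_⟩
    rw [hw, hv, hu'] at hr
    linear_combination hr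
  obtain ⟨t, rfl⟩ : (d : ℤ) ∣ w :=
    (Squarefree.dvd_pow_iff_dvd (Int.squarefree_natCast.2 hd) two_ne_zero).1 ⟨M, hw.symm⟩
  have hM2 : M = (d : ℤ) * t ^ 2 := mul_left_cancel₀ hd0 (by linear_combination hw)
  have hdv : IsCoprime (d : ℤ) v ∧ IsCoprime (s : ℤ) v := by
    have h1 : IsCoprime ((d : ℤ) * (s : ℤ) ^ 2) (v ^ 2) := by
      rw [← hu', ← hv]; exact hcop.isCoprime
    exact ⟨(IsCoprime.pow_right_iff two_pos).1 h1.of_mul_left_left,
      (IsCoprime.pow_iff two_pos two_pos).1 h1.of_mul_left_right⟩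
  obtain ⟨e, he⟩ : (d : ℤ) ∣ 32 * ((n : ℤ) + 3) := by
    refine (hdv.1.pow_right (n := 4)).dvd_of_dvd_mul_right ⟨(4 * (n : ℤ) ^ 2 + 12 * n - 3) *
      v ^ 2 * (s : ℤ) ^ 2 - d * (s : ℤ) ^ 4 - t ^ 2, ?_⟩
    rw [hM, hv, hu'] at hM2
    linear_combination -hM2
  refine descent (t := t) hn hd he.symm hdv.2 (mul_left_cancel₀ hd0 ?_)
  rw [hM, hv, hu'] at hM2
  linear_combination -hM2 - v ^ 4 * he

end FA.BremnerMacleod
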